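/-
S26 P6 (VAR): ALL NINE frozen P6 exports of `Geom.lean` (lead helper3926, board v1), proved by
helper1456 with exactly the frozen signatures under fresh names (namespace
`Fermat.Agent.S26.VAR.H1456`), from complete helper files:

* `isIntegral_prod`                       ← helper7523 `Prod7523.isIntegral_pullback`
* `stalk_isIntegrallyClosed_of_smooth`    ← helper7276 `SmoothNormal7276`
* `localRing_integrallyClosed_of_smooth`  ← the previous one

* `essFiniteType_FF`        ← helper7605 `Bridge.exists_finset_adjoin_eq_top`
* `exists_center`           ← helper7605 `Center7605.exists_stalk_le`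
* `exists_ringHom_pullFun`  ← helper2384 `pullHom`
* `pullFun_constHom`        ← `Invol1456.pullFun_constHom`
* `pullFun_comp`            ← helper2384 `pullFun_comp`
* `pullFun_mem_localRing`   ← helper2384 `pullFun_mem_localRing`, `isUnitAt_pullFun`

No black boxes: standard axioms only.  This file does NOT import `Geom.lean` (only `Defs.lean` through
its dependencies), so `Geom.lean` can import it and replace its nine P6 `sorry`s by these terms.
-/
import Fermat.Agent.S26.D0UB.Bridge.Concrete1456
import Fermat.Agent.S26.SmoothNormal7276
import Fermat.Agent.S26.VAR.Prod7523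

set_option autoImplicit false

universe u

open CategoryTheory CategoryTheory.Limits AlgebraicGeometry

namespace Fermat.Agent.S26.VAR.H1456

open Fermat.Agent.S26

noncomputable section

variable {K : Type u} [Field K] [IsAlgClosed K]

/-- P6 EXPORT: over an algebraically closed field, the product of two integral schemes of finite
type is integral. -/
theorem isIntegral_prod {X Y : Scheme.{u}} (sX : X ⟶ Spec (CommRingCat.of K))
    (sY : Y ⟶ Spec (CommRingCat.of K)) [IsIntegral X] [IsIntegral Y]
    [LocallyOfFiniteType sX] [LocallyOfFiniteType sY] : IsIntegral (pullback sX sY) :=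
  VAR.Prod7523.isIntegral_pullback sX sY

/-- P6 EXPORT: local rings of a smooth integral `K`-scheme are integrally closed. -/
theorem stalk_isIntegrallyClosed_of_smooth {X : Scheme.{u}} [IsIntegral X]
    (sX : X ⟶ Spec (CommRingCat.of K)) [Smooth sX] (x : X) :
    IsIntegrallyClosed (X.presheaf.stalk x) :=
  (SmoothNormal7276.stalk_isDomain_and_isIntegrallyClosed sX x).2

/-- P6 EXPORT: `localRing X x` is integrally closed in the function field (smooth case). -/
theorem localRing_integrallyClosed_of_smooth {X : Scheme.{u}} [IsIntegral X]
    (sX : X ⟶ Spec (CommRingCat.of K)) [Smooth sX] (x : X) (u : X.functionField)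
    (hu : IsIntegral (localRing X x) u) : u ∈ localRing X x := by
  have hic := stalk_isIntegrallyClosed_of_smooth sX x
  obtain ⟨p, hp, hpu⟩ := hu
  have hinj : Function.Injective (algebraMap (X.presheaf.stalk x) X.functionField) :=
    IsFractionRing.injective _ _
  let e : X.presheaf.stalk x ≃+* localRing X x :=
    RingEquiv.ofBijective (algebraMap (X.presheaf.stalk x) X.functionField).rangeRestrict
      ⟨fun a b h => hinj (congrArg Subtype.val h), RingHom.rangeRestrict_surjective _⟩
  have he : (algebraMap (X.presheaf.stalk x) X.functionField).comp (e.symm : _ →+* _) =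
      (localRing X x).subtype := by
    ext a
    obtain ⟨b, rfl⟩ := e.surjective a
    simp only [RingHom.comp_apply, RingEquiv.coe_toRingHom, RingEquiv.symm_apply_apply]
    rfl
  have hint : IsIntegral (X.presheaf.stalk x) u := by
    refine ⟨p.map (e.symm : _ →+* _), hp.map _, ?_⟩
    rw [Polynomial.eval₂_map, he]
    exact hpu
  obtain ⟨a, ha⟩ := (IsIntegrallyClosed.isIntegral_iff (R := X.presheaf.stalk x)).mp hint
  exact ⟨a, ha⟩

/-- helper7605's algebra structure on the function field is the lead's. -/
theorem funAlgebra_eq {X : Scheme.{u}} [IsIntegral X] (sX : X ⟶ Spec (CommRingCat.of K)) :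
    D0UB.Bridge.funAlgebra sX = (inferInstance : Algebra K (FF sX)) :=
  Algebra.algebra_ext _ _ (fun c => D0UB.Concrete1456.center_constHom_eq sX c)

/-- P6 EXPORT: the function field of a variety is a finitely generated field extension. -/
theorem essFiniteType_FF {X : Scheme.{u}} [IsIntegral X] (sX : X ⟶ Spec (CommRingCat.of K))
    [LocallyOfFiniteType sX] : Algebra.EssFiniteType K (FF sX) := by
  have h : @Algebra.EssFiniteType K X.functionField _ _ (D0UB.Bridge.funAlgebra sX) := by
    let _ := D0UB.Bridge.funAlgebra sX
    exact IntermediateField.fg_top_iff.mp (D0UB.Bridge.exists_finset_adjoin_eq_top sX)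
  rw [funAlgebra_eq] at h
  exact h

/-- P6 EXPORT (valuative criterion, existence of a centre): on a proper variety every valuation
subring of the function field containing the constants contains the local ring of some point. -/
theorem exists_center {X : Scheme.{u}} [IsIntegral X] (sX : X ⟶ Spec (CommRingCat.of K))
    [IsProper sX] (O : ValuationSubring X.functionField)
    (hO : ∀ c : K, constHom sX c ∈ O) :
    ∃ x : X, localRing X x ≤ O.toSubring := by
  obtain ⟨x, hx⟩ := Center7605.exists_stalk_le sX O (fun c => by
    rw [D0UB.Concrete1456.center_constHom_eq]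
    exact hO c)
  refine ⟨x, ?_⟩
  rintro y ⟨a, rfl⟩
  exact hx a

/-- P6 EXPORT: for a dominant morphism, `pullFun` is an injective ring homomorphism. -/
theorem exists_ringHom_pullFun {X Y : Scheme.{u}} [IsIntegral X] [IsIntegral Y] (φ : Y ⟶ X)
    (hφ : φ.base (genericPoint Y) = genericPoint X) :
    ∃ ι : X.functionField →+* Y.functionField, ∀ v, ι v = pullFun φ v :=
  ⟨DIV.H2384.pullHom φ hφ, fun _ => rfl⟩

/-- P6 EXPORT: `pullFun` is compatible with the constants. -/
theorem pullFun_constHom {X Y : Scheme.{u}} [IsIntegral X] [IsIntegral Y]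
    (sX : X ⟶ Spec (CommRingCat.of K)) (sY : Y ⟶ Spec (CommRingCat.of K))
    (φ : Y ⟶ X) (hφ : φ ≫ sX = sY) (c : K) : pullFun φ (constHom sX c) = constHom sY c :=
  D0UB.Invol1456.pullFun_constHom sX sY φ hφ c

/-- P6 EXPORT: `pullFun` is contravariantly functorial on functions regular at the image of
the generic point. -/
theorem pullFun_comp {X Y Z : Scheme.{u}} [IsIntegral X] [IsIntegral Y] [IsIntegral Z]
    (ψ : Z ⟶ Y) (φ : Y ⟶ X) (v : X.functionField)
    (hv : v ∈ localRing X ((ψ ≫ φ).base (genericPoint Z))) :
    pullFun (ψ ≫ φ) v = pullFun ψ (pullFun φ v) :=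
  DIV.H2384.pullFun_comp ψ φ hv

/-- P6 EXPORT: the local homomorphism property: `pullFun φ` maps the local ring at `φ y` into
the local ring at `y`, and units to units. -/
theorem pullFun_mem_localRing {X Y : Scheme.{u}} [IsIntegral X] [IsIntegral Y] (φ : Y ⟶ X)
    (y : Y) (v : X.functionField) (hv : v ∈ localRing X (φ.base y)) :
    pullFun φ v ∈ localRing Y y ∧ (IsUnitAt (φ.base y) v → IsUnitAt y (pullFun φ v)) :=
  ⟨DIV.H2384.pullFun_mem_localRing φ y hv, fun hu => DIV.H2384.isUnitAt_pullFun φ y hu⟩

end

end Fermat.Agent.S26.VAR.H1456
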