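import Mathlib

/-!
# S26, package VAR, leaf PROD: products of varieties over an algebraically closed field

Interface-free (Mathlib only).  `K` is an algebraically closed field throughout.

* `isDomain_tensorProduct` : the tensor product over `K` of two `K`-algebras that are domains is
  a domain.
* `isIntegral_pullback` : `X`, `Y` integral schemes over `Spec K`  ==>  `X ×_K Y` is integral
  (no finiteness hypotheses).  `isIntegral_tensorObj_left` : the same in `Over (Spec K)`.
* `geometricallyIntegral_of_isAlgClosed` : an integral scheme over `Spec K` is geometrically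
  integral (so that Mathlib's `GeometricallyIntegral` API applies).
* `closedPointProdEquiv` : for `f`, `g` locally of finite type, the closed points of `X ×_K Y`
  are the pairs of closed points, compatibly with the projections
  (`closedPointProdEquiv_fst/_snd`, `isClosed_fst_of_isClosed`, `isClosed_snd_of_isClosed`,
  `existsUnique_closedPoint`).
-/

set_option autoImplicit false

open TensorProduct

namespace Fermat.Agent.S26.VAR.Prod7523

section Algebra

variable {K A B : Type*} [Field K] [CommRing A] [CommRing B] [Algebra K A] [Algebra K B]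

/-- Coordinates of a base-changed tensor with respect to the base-changed bases. -/
theorem basis_repr_map {A' : Type*} [CommRing A'] [Algebra K A'] (φ : A →ₐ[K] A')
    {ι : Type*} (b : Module.Basis ι K B) (x : A ⊗[K] B) (i : ι) :
    (Algebra.TensorProduct.basis A' b).repr
        (Algebra.TensorProduct.map φ (AlgHom.id K B) x) i =
      φ ((Algebra.TensorProduct.basis A b).repr x i) := by
  induction x using TensorProduct.induction_on with
  | zero => simp
  | tmul a m =>
    simp [Algebra.TensorProduct.basis_repr_tmul]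
  | add x y hx hy =>
    simp only [map_add, Finsupp.add_apply, hx, hy]

/-- If the structure map `K → A'` is bijective, then `A' ⊗[K] B` is a domain when `B` is. -/
theorem isDomain_tensorProduct_of_bijective {A' : Type*} [CommRing A'] [Algebra K A']
    (h : Function.Bijective (algebraMap K A')) [IsDomain B] : IsDomain (A' ⊗[K] B) := by
  let e : K ≃ₐ[K] A' := AlgEquiv.ofBijective (Algebra.ofId K A') h
  let e' : A' ⊗[K] B ≃ₐ[K] B :=
    (Algebra.TensorProduct.congr e.symm (AlgEquiv.refl (R := K) (A₁ := B))).trans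
      (Algebra.TensorProduct.lid K B)
  exact e'.toRingEquiv.toMulEquiv.isDomain B

/-- Over an algebraically closed field, a maximal ideal of a finitely generated algebra has
residue field `K`. -/
theorem bijective_algebraMap_quotient [IsAlgClosed K] [Algebra.FiniteType K A]
    (m : Ideal A) [m.IsMaximal] : Function.Bijective (algebraMap K (A ⧸ m)) := by
  let _ : Field (A ⧸ m) := Ideal.Quotient.field m
  have : Module.Finite K (A ⧸ m) := finite_of_finite_type_of_isJacobsonRing K (A ⧸ m)
  have : Algebra.IsIntegral K (A ⧸ m) := Algebra.IsIntegral.of_finite K (A ⧸ m)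
  exact IsAlgClosed.algebraMap_bijective_of_isIntegral

/-- The finitely generated case of `isDomain_tensorProduct`. -/
theorem mul_eq_zero_of_finiteType [IsAlgClosed K] [IsDomain A] [IsDomain B]
    [Algebra.FiniteType K A] {x y : A ⊗[K] B} (hxy : x * y = 0) : x = 0 ∨ y = 0 := by
  classical
  let b := Module.Free.chooseBasis K B
  let bA := Algebra.TensorProduct.basis A b
  -- all products of coordinates lie in every maximal ideal
  have key : ∀ (m : Ideal A) [m.IsMaximal] (i j : Module.Free.ChooseBasisIndex K B),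
      bA.repr x i * bA.repr y j ∈ m := by
    intro m hm i j
    have : IsDomain ((A ⧸ m) ⊗[K] B) :=
      isDomain_tensorProduct_of_bijective (bijective_algebraMap_quotient m)
    let φ : A →ₐ[K] A ⧸ m := Ideal.Quotient.mkₐ K m
    let ψ := Algebra.TensorProduct.map φ (AlgHom.id K B)
    have h0 : ψ x * ψ y = 0 := by rw [← map_mul, hxy, map_zero]
    have hcoord : ∀ (z : A ⊗[K] B), ψ z = 0 → ∀ i, bA.repr z i ∈ m := by
      intro z hz i
      have := basis_repr_map φ b z i
      rw [show Algebra.TensorProduct.map φ (AlgHom.id K B) z = 0 from hz] at this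
      simp only [map_zero, Finsupp.zero_apply] at this
      exact Ideal.Quotient.eq_zero_iff_mem.mp this.symm
    rcases mul_eq_zero.mp h0 with h | h
    · exact m.mul_mem_right _ (hcoord x h i)
    · exact m.mul_mem_left _ (hcoord y h j)
  have : IsJacobsonRing A := isJacobsonRing_of_finiteType (A := K) (B := A)
  have hjac : (⊥ : Ideal A).jacobson = ⊥ :=
    IsJacobsonRing.out inferInstance (Ideal.isRadical_bot (R := A))
  have key' : ∀ i j, bA.repr x i * bA.repr y j = 0 := by
    intro i j
    have : bA.repr x i * bA.repr y j ∈ (⊥ : Ideal A).jacobson := by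
      rw [Ideal.jacobson, Ideal.mem_sInf]
      rintro m ⟨-, hm⟩
      exact key m i j
    rwa [hjac, Ideal.mem_bot] at this
  by_cases hx : x = 0
  · exact Or.inl hx
  · right
    have : ∃ i, bA.repr x i ≠ 0 := by
      by_contra hcon
      push Not at hcon
      exact hx (bA.repr.injective (Finsupp.ext fun i => by simpa using hcon i))
    obtain ⟨i, hi⟩ := this
    apply bA.repr.injective
    ext j
    simpa using (mul_eq_zero.mp (key' i j)).resolve_left hi

/-- Base change of the inclusion of a subalgebra is injective (flatness over a field). -/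
theorem map_val_injective (A' : Subalgebra K A) :
    Function.Injective (Algebra.TensorProduct.map A'.val (AlgHom.id K B)) := by
  have h := Module.Flat.rTensor_preserves_injective_linearMap (M := B) A'.val.toLinearMap
    Subtype.val_injective
  intro x y hxy
  exact h hxy

/-- Base change of an inclusion of subalgebras. -/
noncomputable abbrev inclMap {A₁ A₂ : Subalgebra K A} (h : A₁ ≤ A₂) :
    A₁ ⊗[K] B →ₐ[K] A₂ ⊗[K] B :=
  Algebra.TensorProduct.map (Subalgebra.inclusion h) (AlgHom.id K B)

/-- Base change of the inclusion of a subalgebra. -/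
noncomputable abbrev valMap (A' : Subalgebra K A) : A' ⊗[K] B →ₐ[K] A ⊗[K] B :=
  Algebra.TensorProduct.map A'.val (AlgHom.id K B)

theorem valMap_inclMap {A₁ A₂ : Subalgebra K A} (h : A₁ ≤ A₂) (z : A₁ ⊗[K] B) :
    valMap (B := B) A₂ (inclMap h z) = valMap A₁ z := by
  induction z using TensorProduct.induction_on with
  | zero => simp
  | tmul a m => simp [valMap, inclMap]
  | add x y hx hy => simp only [map_add, hx, hy]

/-- Every tensor comes from a finitely generated subalgebra of the left factor. -/
theorem exists_fg_mem_range (z : A ⊗[K] B) :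
    ∃ A' : Subalgebra K A, A'.FG ∧ ∃ z' : A' ⊗[K] B, valMap A' z' = z := by
  induction z using TensorProduct.induction_on with
  | zero => exact ⟨⊥, Subalgebra.fg_bot, 0, map_zero _⟩
  | tmul a m =>
    refine ⟨Algebra.adjoin K {a}, ?_, ?_⟩
    · simpa using Subalgebra.fg_adjoin_finset (R := K) ({a} : Finset A)
    · exact ⟨(⟨a, Algebra.subset_adjoin (Set.mem_singleton a)⟩ : Algebra.adjoin K {a}) ⊗ₜ m,
        by simp [valMap]⟩
  | add x y hx hy =>
    obtain ⟨A₁, h₁, x', hx'⟩ := hx
    obtain ⟨A₂, h₂, y', hy'⟩ := hy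
    refine ⟨A₁ ⊔ A₂, h₁.sup h₂, inclMap (B := B) (le_sup_left : A₁ ≤ A₁ ⊔ A₂) x' +
      inclMap (B := B) (le_sup_right : A₂ ≤ A₁ ⊔ A₂) y', ?_⟩
    rw [map_add, valMap_inclMap, valMap_inclMap, hx', hy']

/-- Over an algebraically closed field, the tensor product of two domains has no zero
divisors. -/
theorem mul_eq_zero_tensorProduct [IsAlgClosed K] [IsDomain A] [IsDomain B]
    {x y : A ⊗[K] B} (hxy : x * y = 0) : x = 0 ∨ y = 0 := by
  obtain ⟨A₁, h₁, x', hx'⟩ := exists_fg_mem_range x
  obtain ⟨A₂, h₂, y', hy'⟩ := exists_fg_mem_range y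
  have hfg : (A₁ ⊔ A₂).FG := h₁.sup h₂
  have : Algebra.FiniteType K (A₁ ⊔ A₂ : Subalgebra K A) :=
    (A₁ ⊔ A₂).fg_iff_finiteType.mp hfg
  have hx : valMap (A₁ ⊔ A₂) (inclMap (B := B) (le_sup_left : A₁ ≤ A₁ ⊔ A₂) x') = x := by
    rw [valMap_inclMap, hx']
  have hy : valMap (A₁ ⊔ A₂) (inclMap (B := B) (le_sup_right : A₂ ≤ A₁ ⊔ A₂) y') = y := by
    rw [valMap_inclMap, hy']
  have h0 : inclMap (B := B) (le_sup_left : A₁ ≤ A₁ ⊔ A₂) x' *
      inclMap (B := B) (le_sup_right : A₂ ≤ A₁ ⊔ A₂) y' = 0 := by
    apply map_val_injective (B := B) (A₁ ⊔ A₂)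
    rw [map_mul, map_zero]
    show valMap (A₁ ⊔ A₂) _ * valMap (A₁ ⊔ A₂) _ = 0
    rw [hx, hy, hxy]
  rcases mul_eq_zero_of_finiteType h0 with h | h
  · left; rw [← hx, h, map_zero]
  · right; rw [← hy, h, map_zero]

/-- **Tensor products of domains over an algebraically closed field are domains.** -/
theorem isDomain_tensorProduct [IsAlgClosed K] [IsDomain A] [IsDomain B] :
    IsDomain (A ⊗[K] B) := by
  have : Nontrivial (A ⊗[K] B) :=
    (Algebra.TensorProduct.includeLeft_injective (R := K) (S := K) (A := A) (B := B)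
      (algebraMap K B).injective).nontrivial
  have : NoZeroDivisors (A ⊗[K] B) := ⟨fun h => mul_eq_zero_tensorProduct h⟩
  exact NoZeroDivisors.to_isDomain _

end Algebra

section Topology

/-- A space covered by pairwise intersecting irreducible open subsets is irreducible. -/
theorem irreducibleSpace_of_cover {Z : Type*} [TopologicalSpace Z] {ι : Type*} [Nonempty ι]
    (S : ι → Set Z) (hopen : ∀ i, IsOpen (S i)) (hirr : ∀ i, IsIrreducible (S i))
    (hcov : ∀ z, ∃ i, z ∈ S i) (hpair : ∀ i j, (S i ∩ S j).Nonempty) : IrreducibleSpace Z := by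
  have hne : Nonempty Z := by
    obtain ⟨i⟩ := ‹Nonempty ι›
    exact (hirr i).nonempty.to_type
  refine @IrreducibleSpace.mk _ _ ⟨?_⟩ hne
  rintro u v hu hv ⟨a, -, ha⟩ ⟨b, -, hb⟩
  obtain ⟨i, hi⟩ := hcov a
  obtain ⟨j, hj⟩ := hcov b
  obtain ⟨c, hci, hcu, hcj⟩ := (hirr i).2 u (S j) hu (hopen j) ⟨a, hi, ha⟩ (hpair i j)
  obtain ⟨d, -, hdu, hdv⟩ := (hirr j).2 u v hu hv ⟨c, hcj, hcu⟩ ⟨b, hj, hb⟩
  exact ⟨d, Set.mem_univ d, hdu, hdv⟩

end Topology

section Scheme

open AlgebraicGeometry CategoryTheory Limits

universe u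

variable {K : Type u} [Field K] [IsAlgClosed K]

/-- The fibre product over an algebraically closed field of the spectra of two domains is
integral. -/
theorem isIntegral_pullback_Spec {R S : CommRingCat.{u}} [IsDomain R] [IsDomain S]
    (f : Spec R ⟶ Spec (.of K)) (g : Spec S ⟶ Spec (.of K)) : IsIntegral (pullback f g) := by
  obtain ⟨φ, rfl⟩ := Spec.map_surjective f
  obtain ⟨ψ, rfl⟩ := Spec.map_surjective g
  let _ := φ.hom.toAlgebra
  let _ := ψ.hom.toAlgebra
  have : IsDomain (R ⊗[K] S) := isDomain_tensorProduct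
  exact IsIntegral.of_isIso (pullbackSpecIso K R S).inv

/-- The fibre product over an algebraically closed field of two integral affine schemes is
integral. -/
theorem isIntegral_pullback_of_isAffine {U V : Scheme.{u}} [IsAffine U] [IsAffine V]
    [IsIntegral U] [IsIntegral V] (f : U ⟶ Spec (.of K)) (g : V ⟶ Spec (.of K)) :
    IsIntegral (pullback f g) := by
  have := isIntegral_pullback_Spec (U.isoSpec.inv ≫ f) (V.isoSpec.inv ≫ g)
  exact IsIntegral.of_isIso (pullback.map (U.isoSpec.inv ≫ f) (V.isoSpec.inv ≫ g) f g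
    U.isoSpec.inv V.isoSpec.inv (𝟙 _) (by simp) (by simp))

/-- An empty scheme is reduced. -/
theorem isReduced_of_isEmpty (X : Scheme.{u}) [IsEmpty X] : IsReduced X :=
  have : ∀ x : X, _root_.IsReduced (X.presheaf.stalk x) := fun x => isEmptyElim x
  isReduced_of_isReduced_stalk X

/-- **Products of integral schemes over an algebraically closed field are integral.** -/
theorem isIntegral_pullback {X Y : Scheme.{u}} [IsIntegral X] [IsIntegral Y]
    (f : X ⟶ Spec (.of K)) (g : Y ⟶ Spec (.of K)) : IsIntegral (pullback f g) := by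
  let 𝒰 := Scheme.Pullback.openCoverOfLeftRight X.affineCover Y.affineCover f g
  -- the charts: nonempty ones are integral
  have hint : ∀ ij : X × Y, Nonempty (X.affineCover.X ij.1) → Nonempty (Y.affineCover.X ij.2) →
      IsIntegral (𝒰.X ij) := fun ij h₁ h₂ => by
    have := isIntegral_of_isOpenImmersion (X.affineCover.f ij.1)
    have := isIntegral_of_isOpenImmersion (Y.affineCover.f ij.2)
    exact isIntegral_pullback_of_isAffine (X.affineCover.f ij.1 ≫ f) (Y.affineCover.f ij.2 ≫ g)
  have hred : ∀ ij, IsReduced (𝒰.X ij) := fun ij => by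
    rcases isEmpty_or_nonempty (X.affineCover.X ij.1) with h₁ | h₁
    · have : IsEmpty (𝒰.X ij) :=
        Function.isEmpty (fun z => pullback.fst (X.affineCover.f ij.1 ≫ f)
          (Y.affineCover.f ij.2 ≫ g) z)
      exact isReduced_of_isEmpty _
    rcases isEmpty_or_nonempty (Y.affineCover.X ij.2) with h₂ | h₂
    · have : IsEmpty (𝒰.X ij) :=
        Function.isEmpty (fun z => pullback.snd (X.affineCover.f ij.1 ≫ f)
          (Y.affineCover.f ij.2 ≫ g) z)
      exact isReduced_of_isEmpty _
    have := hint ij h₁ h₂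
    infer_instance
  have hrange : ∀ (ij : X × Y) (z : ↥(pullback f g)), z ∈ Set.range (𝒰.f ij) ↔
      pullback.fst f g z ∈ Set.range (X.affineCover.f ij.1) ∧
      pullback.snd f g z ∈ Set.range (Y.affineCover.f ij.2) := by
    intro ij z
    exact Set.ext_iff.mp (Scheme.Pullback.range_map (f := X.affineCover.f ij.1 ≫ f)
      (g := Y.affineCover.f ij.2 ≫ g) f g (X.affineCover.f ij.1) (Y.affineCover.f ij.2) (𝟙 _)
      (Category.comp_id _) (Category.comp_id _)) z
  rw [isIntegral_iff_irreducibleSpace_and_isReduced]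
  refine ⟨?_, IsReduced.of_openCover _ 𝒰⟩
  have hne : Nonempty ↥(pullback f g) := by
    obtain ⟨z, -⟩ := Scheme.Pullback.exists_preimage_pullback (f := f) (g := g)
      (Classical.arbitrary X) (Classical.arbitrary Y) (Subsingleton.elim _ _)
    exact ⟨z⟩
  refine irreducibleSpace_of_cover (ι := ↥(pullback f g))
    (fun w => Set.range (𝒰.f (𝒰.idx w)))
    (fun w => (𝒰.f (𝒰.idx w)).isOpenEmbedding.isOpen_range) (fun w => ?_)
    (fun z => ⟨z, 𝒰.covers z⟩) (fun w w' => ?_)
  · obtain ⟨a, ha⟩ := 𝒰.covers w
    have h₁ : Nonempty (X.affineCover.X (𝒰.idx w).1) :=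
      ⟨pullback.fst (X.affineCover.f (𝒰.idx w).1 ≫ f) (Y.affineCover.f (𝒰.idx w).2 ≫ g) a⟩
    have h₂ : Nonempty (Y.affineCover.X (𝒰.idx w).2) :=
      ⟨pullback.snd (X.affineCover.f (𝒰.idx w).1 ≫ f) (Y.affineCover.f (𝒰.idx w).2 ≫ g) a⟩
    have := hint (𝒰.idx w) h₁ h₂
    rw [← Set.image_univ]
    exact (IrreducibleSpace.isIrreducible_univ _).image _
      (𝒰.f (𝒰.idx w)).continuous.continuousOn
  · -- pairwise intersections
    have hw := (hrange _ w).mp (𝒰.covers w)
    have hw' := (hrange _ w').mp (𝒰.covers w')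
    obtain ⟨x, hx₁, hx₂⟩ := nonempty_preirreducible_inter
      (X.affineCover.f (𝒰.idx w).1).isOpenEmbedding.isOpen_range
      (X.affineCover.f (𝒰.idx w').1).isOpenEmbedding.isOpen_range ⟨_, hw.1⟩ ⟨_, hw'.1⟩
    obtain ⟨y, hy₁, hy₂⟩ := nonempty_preirreducible_inter
      (Y.affineCover.f (𝒰.idx w).2).isOpenEmbedding.isOpen_range
      (Y.affineCover.f (𝒰.idx w').2).isOpenEmbedding.isOpen_range ⟨_, hw.2⟩ ⟨_, hw'.2⟩
    obtain ⟨z, hz₁, hz₂⟩ := Scheme.Pullback.exists_preimage_pullback (f := f) (g := g) x y
      (Subsingleton.elim _ _)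
    exact ⟨z, (hrange _ z).mpr ⟨hz₁ ▸ hx₁, hz₂ ▸ hy₁⟩, (hrange _ z).mpr ⟨hz₁ ▸ hx₂, hz₂ ▸ hy₂⟩⟩

/-- **An integral scheme over an algebraically closed field is geometrically integral.** -/
theorem geometricallyIntegral_of_isAlgClosed {X : Scheme.{u}} [IsIntegral X]
    (f : X ⟶ Spec (.of K)) : GeometricallyIntegral f := by
  refine ⟨fun L _ y Z fst snd h => ?_⟩
  have : IsIntegral (pullback f y) := isIntegral_pullback f y
  exact IsIntegral.of_isIso h.isoPullback.inv

/-- Products of integral schemes over an algebraically closed field are irreducible. -/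
theorem irreducibleSpace_pullback {X Y : Scheme.{u}} [IsIntegral X] [IsIntegral Y]
    (f : X ⟶ Spec (.of K)) (g : Y ⟶ Spec (.of K)) : IrreducibleSpace ↥(pullback f g) :=
  have := isIntegral_pullback f g
  inferInstance

/-- Products in `Over (Spec K)` of integral schemes are integral (`K` algebraically closed). -/
theorem isIntegral_tensorObj_left (G H : Over (Spec (.of K))) [IsIntegral G.left]
    [IsIntegral H.left] : IsIntegral (MonoidalCategory.tensorObj G H).left := by
  show IsIntegral (pullback G.hom H.hom)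
  exact isIntegral_pullback _ _

section ClosedPoints

variable {X Y : Scheme.{u}} (f : X ⟶ Spec (.of K)) (g : Y ⟶ Spec (.of K))

/-- The `K`-points of the product are the pairs of `K`-points. -/
noncomputable def pointProdEquiv :
    {p : Spec (.of K) ⟶ pullback f g // p ≫ (pullback.fst f g ≫ f) = 𝟙 _} ≃
      {p : Spec (.of K) ⟶ X // p ≫ f = 𝟙 _} × {q : Spec (.of K) ⟶ Y // q ≫ g = 𝟙 _} where
  toFun p := (⟨p.1 ≫ pullback.fst f g, by simpa using p.2⟩,
    ⟨p.1 ≫ pullback.snd f g, by rw [Category.assoc, ← pullback.condition]; exact p.2⟩)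
  invFun pq := ⟨pullback.lift pq.1.1 pq.2.1 (by rw [pq.1.2, pq.2.2]),
    by rw [pullback.lift_fst_assoc, pq.1.2]⟩
  left_inv p := by
    apply Subtype.ext
    apply pullback.hom_ext
    · exact pullback.lift_fst _ _ _
    · exact pullback.lift_snd _ _ _
  right_inv pq := by
    apply Prod.ext <;> apply Subtype.ext
    · exact pullback.lift_fst _ _ _
    · exact pullback.lift_snd _ _ _

variable [LocallyOfFiniteType f] [LocallyOfFiniteType g]

/-- Over an algebraically closed field, the closed points of a product are the pairs of closed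
points. -/
noncomputable def closedPointProdEquiv :
    closedPoints ↥(pullback f g) ≃ closedPoints X × closedPoints Y :=
  (pointEquivClosedPoint (pullback.fst f g ≫ f)).symm.trans
    ((pointProdEquiv f g).trans
      ((pointEquivClosedPoint f).prodCongr (pointEquivClosedPoint g)))

theorem closedPointProdEquiv_fst (z : closedPoints ↥(pullback f g)) :
    ((closedPointProdEquiv f g z).1 : X) = pullback.fst f g z.1 := by
  simp [closedPointProdEquiv, pointProdEquiv]

theorem closedPointProdEquiv_snd (z : closedPoints ↥(pullback f g)) :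
    ((closedPointProdEquiv f g z).2 : Y) = pullback.snd f g z.1 := by
  simp [closedPointProdEquiv, pointProdEquiv]

/-- The projections of a product map closed points to closed points. -/
theorem isClosed_fst_of_isClosed {z : ↥(pullback f g)} (hz : IsClosed {z}) :
    IsClosed {pullback.fst f g z} := by
  have := (closedPointProdEquiv f g ⟨z, hz⟩).1.2
  rwa [closedPointProdEquiv_fst] at this

theorem isClosed_snd_of_isClosed {z : ↥(pullback f g)} (hz : IsClosed {z}) :
    IsClosed {pullback.snd f g z} := by
  have := (closedPointProdEquiv f g ⟨z, hz⟩).2.2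
  rwa [closedPointProdEquiv_snd] at this

/-- Over a pair of closed points there is exactly one closed point of the product. -/
theorem existsUnique_closedPoint {x : X} {y : Y} (hx : IsClosed {x}) (hy : IsClosed {y}) :
    ∃! z : ↥(pullback f g), IsClosed {z} ∧ pullback.fst f g z = x ∧ pullback.snd f g z = y := by
  let z := (closedPointProdEquiv f g).symm (⟨x, hx⟩, ⟨y, hy⟩)
  have hz : closedPointProdEquiv f g z = (⟨x, hx⟩, ⟨y, hy⟩) := Equiv.apply_symm_apply _ _
  refine ⟨z.1, ⟨z.2, ?_, ?_⟩, ?_⟩
  · rw [← closedPointProdEquiv_fst, hz]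
  · rw [← closedPointProdEquiv_snd, hz]
  · rintro w ⟨hw, hw₁, hw₂⟩
    have : (⟨w, hw⟩ : closedPoints ↥(pullback f g)) = z := by
      apply (closedPointProdEquiv f g).injective
      rw [hz]
      apply Prod.ext <;> apply Subtype.ext
      · rw [closedPointProdEquiv_fst]; exact hw₁
      · rw [closedPointProdEquiv_snd]; exact hw₂
    exact congrArg Subtype.val this

end ClosedPoints

end Scheme

end Fermat.Agent.S26.VAR.Prod7523
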